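import Fermat.Agent.GB.A.HeckeW.Comm
import Fermat.Agent.GB.A.A5.HeckeKerRed
import Fermat.Agent.GB.A.FP

/-!
# GATE-B / CASE A / A3b support (helper19): the multiplicative Hecke operator and the two Gauss
valuations — `w_i (T_ℓ x) = (ℓ + 1) · w_i (x)` in unit-group form

* `heckeNorm_mem_Rw` (generic `HasGaussFrac`) : the Hecke norm maps the Gauss valuation ring into
  itself (helper56's Gauss-fraction trick: `x · b = a` ⟹ `T x · T b = T a`, `(T b)~ = T (b~) ≠ 0`);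
* `heckeHom_eq_heckeNormF` : `KumType.heckeHom hM x = heckeNormF N ℓ x` (helper43's norm form);
* `heckeHom_wAut`, `heckeUnits_wAut` : **`T_ℓ ∘ W_q = W_q ∘ T_ℓ`** on `F_N` and on units;
* `heckeHom_mem_Rw₁`, `heckeHom_mem_Rw₂` : `T_ℓ` preserves `Rw₁` and `Rw₂`;
* `heckeUnits_mem_unitGroup₁/₂`, `bothUnit_heckeUnits` : `T_ℓ` preserves the units of `Rw₁`, of
  `Rw₂`, and helper28's `FP.BothUnit`;
* `heckeUnits_const_mul` : `T_ℓ (c · u) = c^(ℓ+1) · T_ℓ u` for a constant `c ∈ ℚ̄ˣ`.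

Consequence (for helper73's `ν = ord_{w₂} − ord_{w₁}`): if `u = c₁ e₁ = c₂ e₂` with `c_i` constants
and `e_i` a unit of `Rw_i`, then `T u = c₁^(ℓ+1) T e₁ = c₂^(ℓ+1) T e₂` with `T e_i` a unit of
`Rw_i`, i.e. `ν (T u) = (ℓ + 1) ν (u)`.
-/

set_option autoImplicit false
set_option linter.unusedSectionVars false
set_option linter.style.haveILetI false

noncomputable section

namespace Fermat.Agent.GB.A.HeckeW

open ModularCurve HahnSeries AlgebraicCurve IsLocalRing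
open Fermat.Agent.S24 Fermat.Agent.S24_helper62
open Fermat.Agent.GJ.J1 Fermat.Agent.GJ.J1.Val Fermat.Agent.GJ.Kum Fermat.Agent.GJ.KumGroup
open Fermat.Agent.GJ.Kum.KumType
open Fermat.Agent.GJ.HN Fermat.Agent.GK.AL Fermat.Agent.GK.UqKronecker
open Fermat.Agent.GB.A.A5.HeckeKerRed

/-! ### the generic statement -/

section Generic

variable {L : Type*} [Field L] {A : ValuationSubring L}
  {F : IntermediateField L (LaurentSeries L)} {hGF : HasGaussFrac A F}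
  (ℓ : ℕ) [NeZero ℓ]

/-- **the Hecke norm preserves the Gauss valuation ring** of any field of Laurent series with the
Gauss fraction property which is stable under the Hecke norm. -/
theorem heckeNorm_mem_Rw
    (hmem : ∀ a : LaurentSeries A, emb A a ∈ F → heckeNorm ℓ (emb A a) ∈ F)
    {x Tx : F} (hx : x ∈ Rw A F hGF)
    (hT : (Tx : LaurentSeries L) = heckeNorm ℓ (x : LaurentSeries L)) : Tx ∈ Rw A F hGF := by
  obtain ⟨a, b, ha, hb, hb0, hxb⟩ := hx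
  refine ⟨heckeNorm ℓ a, heckeNorm ℓ b, ?_, ?_, ?_, ?_⟩
  · rw [emb, coeffMap_heckeNorm]
    exact hmem a ha
  · rw [emb, coeffMap_heckeNorm]
    exact hmem b hb
  · rw [rd, coeffMap_heckeNorm]
    exact heckeNorm_ne_zero' ℓ hb0
  · rw [hT, emb, coeffMap_heckeNorm, coeffMap_heckeNorm, ← heckeNorm_mul]
    exact congrArg (heckeNorm ℓ) hxb

end Generic

/-! ### the modular function field -/

section Concrete

variable {N : ℕ} [NeZero N] {ℓ : ℕ} [NeZero ℓ] (A : ValuationSubring Qb)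

/-- `T_ℓ (Rw₁) ⊂ Rw₁` -/
theorem heckeHom_mem_Rw₁ (hM : HNMemHyp N ℓ) {x : FK N} (hx : x ∈ (redDataBar N A).Rw) :
    heckeHom hM x ∈ (redDataBar N A).Rw :=
  heckeNorm_mem_Rw (hGF := hasGaussFrac_bar N A) ℓ (fun a ha => hM _ ha) hx rfl

variable {q : ℕ} (h : ExactDvd q N)

/-- `heckeHom` is helper43's `Norm_α ∘ β` -/
theorem heckeHom_eq_heckeNormF [hℓ : Fact ℓ.Prime] (hℓN : ¬ ℓ ∣ N) (hM : HNMemHyp N ℓ)
    (x : FK N) : heckeHom hM x = heckeNormF N ℓ x :=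
  Subtype.ext (coe_heckeNormF N ℓ hℓN x).symm

/-- **`T_ℓ ∘ W_q = W_q ∘ T_ℓ`** on `F_N` -/
theorem heckeHom_wAut [hℓ : Fact ℓ.Prime] (hℓN : ¬ ℓ ∣ N) (hM : HNMemHyp N ℓ) (x : FK N) :
    heckeHom hM (wAut h x) = wAut h (heckeHom hM x) := by
  have hℓq : ℓ ≠ q := fun e => hℓN (e ▸ h.dvd)
  rw [heckeHom_eq_heckeNormF hℓN, heckeHom_eq_heckeNormF hℓN, heckeNormF_wAut h hℓq]

/-- **`T_ℓ ∘ W_q = W_q ∘ T_ℓ`** on units -/
theorem heckeUnits_wAut [hℓ : Fact ℓ.Prime] (hℓN : ¬ ℓ ∣ N) (hM : HNMemHyp N ℓ) (u : (FK N)ˣ) :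
    heckeUnits hM (autUnits (wAut h) u) = autUnits (wAut h) (heckeUnits hM u) :=
  Units.ext (heckeHom_wAut h hℓN hM (u : FK N))

/-- `T_ℓ (Rw₂) ⊂ Rw₂` -/
theorem heckeHom_mem_Rw₂ [hℓ : Fact ℓ.Prime] (hℓN : ¬ ℓ ∣ N) (hM : HNMemHyp N ℓ) {x : FK N}
    (hx : x ∈ (redData2 N A h).Rw) : heckeHom hM x ∈ (redData2 N A h).Rw := by
  rw [mem_Rw2_iff] at hx ⊢
  rw [← heckeHom_wAut h hℓN hM]
  exact heckeHom_mem_Rw₁ A hM hx

/-- `T_ℓ` preserves the units of `Rw₁` -/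
theorem heckeUnits_mem_unitGroup₁ (hM : HNMemHyp N ℓ) {u : (FK N)ˣ}
    (hu : (u : FK N) ∈ (redDataBar N A).Rw)
    (hu' : ((u⁻¹ : (FK N)ˣ) : FK N) ∈ (redDataBar N A).Rw) :
    ((heckeUnits hM u : (FK N)ˣ) : FK N) ∈ (redDataBar N A).Rw ∧
      (((heckeUnits hM u)⁻¹ : (FK N)ˣ) : FK N) ∈ (redDataBar N A).Rw := by
  refine ⟨heckeHom_mem_Rw₁ A hM hu, ?_⟩
  rw [← map_inv]
  exact heckeHom_mem_Rw₁ A hM hu'

/-- `T_ℓ` preserves the units of `Rw₂` -/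
theorem heckeUnits_mem_unitGroup₂ [hℓ : Fact ℓ.Prime] (hℓN : ¬ ℓ ∣ N) (hM : HNMemHyp N ℓ)
    {u : (FK N)ˣ} (hu : (u : FK N) ∈ (redData2 N A h).Rw)
    (hu' : ((u⁻¹ : (FK N)ˣ) : FK N) ∈ (redData2 N A h).Rw) :
    ((heckeUnits hM u : (FK N)ˣ) : FK N) ∈ (redData2 N A h).Rw ∧
      (((heckeUnits hM u)⁻¹ : (FK N)ˣ) : FK N) ∈ (redData2 N A h).Rw := by
  refine ⟨heckeHom_mem_Rw₂ A h hℓN hM hu, ?_⟩
  rw [← map_inv]
  exact heckeHom_mem_Rw₂ A h hℓN hM hu'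

/-- **`BothUnit` is `T_ℓ`-stable** -/
theorem bothUnit_heckeUnits [hℓ : Fact ℓ.Prime] (hℓN : ¬ ℓ ∣ N) (hM : HNMemHyp N ℓ)
    {u : (FK N)ˣ} (hu : Fermat.Agent.GB.A.FP.BothUnit h A u) :
    Fermat.Agent.GB.A.FP.BothUnit h A (heckeUnits hM u) :=
  ⟨heckeUnits_mem_unitGroup₁ A hM hu.1.1 hu.1.2,
    heckeUnits_mem_unitGroup₂ A h hℓN hM hu.2.1 hu.2.2⟩

/-- `T_ℓ (c) = c^(ℓ+1)` on constants -/
theorem heckeHom_algebraMap (hM : HNMemHyp N ℓ) (c : Qb) :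
    heckeHom hM (algebraMap Qb (FK N) c) = algebraMap Qb (FK N) (c ^ (ℓ + 1)) := by
  apply Subtype.ext
  show heckeNormSeries ℓ ((algebraMap Qb (FK N) c : FK N) : LaurentSeries Qb) =
    ((algebraMap Qb (FK N) (c ^ (ℓ + 1)) : FK N) : LaurentSeries Qb)
  have e : ∀ d : Qb, ((algebraMap Qb (FK N) d : FK N) : LaurentSeries Qb) =
      HahnSeries.single 0 d := fun d => algebraMap_laurentSeries_eq_single Qb d
  rw [e, e]
  exact heckeNorm_single_zero ℓ c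

/-- `T_ℓ (c · x) = c^(ℓ+1) · T_ℓ x` for a constant `c` -/
theorem heckeHom_const_mul (hM : HNMemHyp N ℓ) (c : Qb) (x : FK N) :
    heckeHom hM (algebraMap Qb (FK N) c * x) =
      algebraMap Qb (FK N) (c ^ (ℓ + 1)) * heckeHom hM x := by
  rw [map_mul, heckeHom_algebraMap]

end Concrete

end Fermat.Agent.GB.A.HeckeW
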