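import Fermat.Agent.GJ.HN.Bridge
import Fermat.Agent.GK.AL.WRealize

/-!
# GATE-B / CASE A / A3b support (helper19): `T_ℓ ∘ W_q = W_q ∘ T_ℓ` at FUNCTION level

`q ∥ N`, `ℓ` prime, `ℓ ≠ q`.  `W = wAut h` on `F_N`, `W′ = wAut h′` on `F_{Nℓ}`
(`h′ : ExactDvd q (N ℓ)`), `α β : F_N → F_{Nℓ}` the two degeneracy maps (`alphaH`, `betaH`).

* `exactDvd_mul`   : `q ∥ N ℓ`;
* `wAut_alphaH`, `wAut_betaH` : `W′ ∘ α = α ∘ W`, `W′ ∘ β = β ∘ W` (on the generators `j(q^d)`);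
* `normA_wAut`     : `Norm_α (W′ x) = W (Norm_α x)` (Mathlib `Algebra.norm_eq_of_equiv_equiv`);
* `heckeNormF_wAut`: **`T_ℓ (W u) = W (T_ℓ u)`** for the multiplicative Hecke operator
  `heckeNormF N ℓ u = Norm_α (β u)` of helper43 (`GJ/HN/Main`), whose `q`-expansion is
  `Kum.heckeNorm ℓ u` (`GJ/HN/Bridge.coe_heckeNormF`).

The class-level statement (`TEnd_comm_of_gal_comm`, via Eichler–Shimura) loses a constant; the
function-level statement is what the valuation bookkeeping `w₂ (T u) = (ℓ+1) w₂ (u)` needs.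
-/

set_option autoImplicit false
set_option linter.unusedSectionVars false
set_option linter.style.haveILetI false

noncomputable section

namespace Fermat.Agent.GB.A.HeckeW

open ModularCurve HahnSeries AlgebraicCurve
open Fermat.Agent.S24 Fermat.Agent.S24_helper62 Fermat.Agent.S24_helper82
open Fermat.Agent.GJ.HN Fermat.Agent.GK.AL

variable {N : ℕ} [NeZero N] {q : ℕ} (h : ExactDvd q N) (ℓ : ℕ) [hℓ : Fact ℓ.Prime]

include h in
/-- `q ∥ N`, `ℓ ≠ q` prime ⟹ `q ∥ N ℓ` -/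
theorem exactDvd_mul (hℓq : ℓ ≠ q) : ExactDvd q (N * ℓ) where
  prime := h.prime
  dvd := Dvd.dvd.mul_right h.dvd ℓ
  not_sq := by
    intro h2
    apply h.not_sq
    have hcop : Nat.Coprime (q ^ 2) ℓ :=
      Nat.Coprime.pow_left 2 ((Nat.coprime_primes h.prime hℓ.out).mpr (Ne.symm hℓq))
    exact hcop.dvd_of_dvd_mul_right h2

/-- `α` on the generators -/
theorem alphaH_gen (d : DivIdx N) :
    alphaH N ℓ (gen N d) = gen (N * ℓ) ⟨d.1, d.2.trans (dvd_mul_right N ℓ)⟩ := by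
  rw [gen_eq_jdF, gen_eq_jdF, alphaH_jdF]

/-- `β` on the generators -/
theorem betaH_gen (d : DivIdx N) :
    betaH N ℓ (gen N d) = gen (N * ℓ) ⟨ℓ * d.1, dvd_level_of_dvd N ℓ d.2⟩ := by
  rw [gen_eq_jdF, gen_eq_jdF, betaH_jdF]

variable {ℓ}

/-- **`W′ ∘ α = α ∘ W`** -/
theorem wAut_alphaH (hℓq : ℓ ≠ q) (f : FN N) :
    wAut (exactDvd_mul h ℓ hℓq) (alphaH N ℓ f) = alphaH N ℓ (wAut h f) := by
  have key : ((wAut (exactDvd_mul h ℓ hℓq) : FN (N * ℓ) ≃ₐ[Kbar] FN (N * ℓ)) :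
      FN (N * ℓ) →ₐ[Kbar] FN (N * ℓ)).comp (alphaH N ℓ) =
      (alphaH N ℓ).comp ((wAut h : FN N ≃ₐ[Kbar] FN N) : FN N →ₐ[Kbar] FN N) := by
    apply algHom_ext_gen
    intro d
    show wAut (exactDvd_mul h ℓ hℓq) (alphaH N ℓ (gen N d)) = alphaH N ℓ (wAut h (gen N d))
    rw [alphaH_gen, wAut_gen, wAut_gen, alphaH_gen]
    apply gen_congr
    show (swapFun (exactDvd_mul h ℓ hℓq) ⟨d.1, d.2.trans (dvd_mul_right N ℓ)⟩).1 =
      (swapFun h d).1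
    by_cases hqd : q ∣ d.1
    · rw [swapFun_of_dvd (exactDvd_mul h ℓ hℓq)
        (d := ⟨d.1, d.2.trans (dvd_mul_right N ℓ)⟩) hqd, swapFun_of_dvd h hqd]
    · rw [swapFun_of_not_dvd (exactDvd_mul h ℓ hℓq)
        (d := ⟨d.1, d.2.trans (dvd_mul_right N ℓ)⟩) hqd, swapFun_of_not_dvd h hqd]
  exact DFunLike.congr_fun key f

/-- **`W′ ∘ β = β ∘ W`** -/
theorem wAut_betaH (hℓq : ℓ ≠ q) (f : FN N) :
    wAut (exactDvd_mul h ℓ hℓq) (betaH N ℓ f) = betaH N ℓ (wAut h f) := by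
  have hcop : Nat.Coprime q ℓ := (Nat.coprime_primes h.prime hℓ.out).mpr (Ne.symm hℓq)
  have key : ((wAut (exactDvd_mul h ℓ hℓq) : FN (N * ℓ) ≃ₐ[Kbar] FN (N * ℓ)) :
      FN (N * ℓ) →ₐ[Kbar] FN (N * ℓ)).comp (betaH N ℓ) =
      (betaH N ℓ).comp ((wAut h : FN N ≃ₐ[Kbar] FN N) : FN N →ₐ[Kbar] FN N) := by
    apply algHom_ext_gen
    intro d
    show wAut (exactDvd_mul h ℓ hℓq) (betaH N ℓ (gen N d)) = betaH N ℓ (wAut h (gen N d))
    rw [betaH_gen, wAut_gen, wAut_gen, betaH_gen]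
    apply gen_congr
    show (swapFun (exactDvd_mul h ℓ hℓq) ⟨ℓ * d.1, dvd_level_of_dvd N ℓ d.2⟩).1 =
      ℓ * (swapFun h d).1
    by_cases hqd : q ∣ d.1
    · have hqd' : q ∣ ℓ * d.1 := Dvd.dvd.mul_left hqd ℓ
      rw [swapFun_of_dvd (exactDvd_mul h ℓ hℓq)
        (d := ⟨ℓ * d.1, dvd_level_of_dvd N ℓ d.2⟩) hqd', swapFun_of_dvd h hqd]
      exact Nat.mul_div_assoc ℓ hqd
    · have hqd' : ¬ q ∣ ℓ * d.1 := fun h1 => hqd (hcop.dvd_of_dvd_mul_left h1)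
      rw [swapFun_of_not_dvd (exactDvd_mul h ℓ hℓq)
        (d := ⟨ℓ * d.1, dvd_level_of_dvd N ℓ d.2⟩) hqd', swapFun_of_not_dvd h hqd]
      ring
  exact DFunLike.congr_fun key f

/-- **the norm along `α` commutes with the Atkin–Lehner involutions** -/
theorem normA_wAut (hℓq : ℓ ≠ q) (x : FN (N * ℓ)) :
    normA N ℓ (wAut (exactDvd_mul h ℓ hℓq) x) = wAut h (normA N ℓ x) := by
  letI := algebraAlong (alphaH N ℓ)
  have he : RingHom.comp (algebraMap (FN N) (FN (N * ℓ)))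
      ((wAut h : FN N ≃ₐ[Kbar] FN N) : FN N ≃+* FN N) =
      RingHom.comp ((wAut (exactDvd_mul h ℓ hℓq) : FN (N * ℓ) ≃ₐ[Kbar] FN (N * ℓ)) :
        FN (N * ℓ) ≃+* FN (N * ℓ)) (algebraMap (FN N) (FN (N * ℓ))) := by
    refine RingHom.ext fun f => ?_
    exact (wAut_alphaH h hℓq f).symm
  have h1 := Algebra.norm_eq_of_equiv_equiv
    ((wAut h : FN N ≃ₐ[Kbar] FN N) : FN N ≃+* FN N)
    ((wAut (exactDvd_mul h ℓ hℓq) : FN (N * ℓ) ≃ₐ[Kbar] FN (N * ℓ)) :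
      FN (N * ℓ) ≃+* FN (N * ℓ)) he x
  show Algebra.norm (FN N) (wAut (exactDvd_mul h ℓ hℓq) x) = wAut h (Algebra.norm (FN N) x)
  rw [h1]
  exact (RingEquiv.apply_symm_apply ((wAut h : FN N ≃ₐ[Kbar] FN N) : FN N ≃+* FN N) _).symm

/-- **`T_ℓ ∘ W_q = W_q ∘ T_ℓ` on `F_N`** (function level, no constant) -/
theorem heckeNormF_wAut (hℓq : ℓ ≠ q) (u : FN N) :
    heckeNormF N ℓ (wAut h u) = wAut h (heckeNormF N ℓ u) := by
  rw [heckeNormF, heckeNormF, ← wAut_betaH h hℓq, normA_wAut h hℓq]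

end Fermat.Agent.GB.A.HeckeW
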